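import Fermat.Agent.RED.Hauptmodul.FormSeries

/-!
# `E₄` and `E₆` in terms of the weight two forms `x = η(τ)⁸/η(2τ)⁴`, `z = η(4τ)⁸/η(2τ)⁴` of level 4
-/

set_option autoImplicit false

noncomputable section

namespace Fermat.Agent.RED.Hauptmodul

open ModularCurve Fermat.Agent.MF

/-- `2E₂(2τ) - E₂(τ)`. -/
def a2Seq : ℕ → ℤ := eisSeq 2 24

/-- The same at `2τ`. -/
def b2Seq (n : ℕ) : ℤ := if 2 ∣ n then a2Seq (n / 2) else 0

/-- `z = ∑_{n odd} σ(n) qⁿ`. -/
def z4Seq (n : ℕ) : ℤ := if 2 ∣ n then 0 else sigmaAway 2 n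

/-- `x = B - 8z`. -/
def x4Seq (n : ℕ) : ℤ := b2Seq n - 8 * z4Seq n

/-- The series `x` of level 4. -/
def x4 : PowerSeries ℤ := PowerSeries.mk x4Seq

/-- The series `z` of level 4. -/
def z4 : PowerSeries ℤ := PowerSeries.mk z4Seq

theorem a2_sub_b2 (n : ℕ) : a2Seq n - b2Seq n = 24 * z4Seq n := by
  rcases eq_or_ne n 0 with rfl | hn
  · simp [a2Seq, b2Seq, z4Seq, eisSeq]
  by_cases h : 2 ∣ n
  · obtain ⟨m, rfl⟩ := h
    have hm : m ≠ 0 := by simpa using hn
    simp [a2Seq, b2Seq, z4Seq, eisSeq, hm, sigmaAway_mul 2 m]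
  · simp [a2Seq, b2Seq, z4Seq, eisSeq, hn, h]

theorem z4_mem : z4 ∈ formSeries 4 2 := by
  have hA : PowerSeries.mk a2Seq ∈ formSeries 4 2 :=
    mem_formSeries_of_dvd (M := 2) (by norm_num) (eisSeq_mem 2 24 (by norm_num))
  have hB : PowerSeries.mk b2Seq ∈ formSeries 4 2 := by
    have := expand_mem_formSeries (d := 2) (N := 4) (by norm_num) (eisSeq_mem 2 24 (by norm_num))
    rwa [expand_mk] at this
  refine mem_formSeries_of_zsmul (n := 24) (by norm_num) ?_
  rw [z4, zsmul_mk, show (fun n => 24 * z4Seq n) = fun n => a2Seq n - b2Seq n from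
    funext fun n => (a2_sub_b2 n).symm, ← mk_sub_mk]
  exact sub_mem hA hB

theorem x4_mem : x4 ∈ formSeries 4 2 := by
  have hB : PowerSeries.mk b2Seq ∈ formSeries 4 2 := by
    have := expand_mem_formSeries (d := 2) (N := 4) (by norm_num) (eisSeq_mem 2 24 (by norm_num))
    rwa [expand_mk] at this
  have := sub_mem hB (zsmul_mem z4_mem 8)
  rwa [z4, zsmul_mk, mk_sub_mk] at this

theorem dedekindPsi_four : dedekindPsi 4 = 6 := by decide +kernel

/-- A binary quadratic form in `x, z`. -/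
def quad4 (a b c : ℤ) : PowerSeries ℤ :=
  a • (x4 * x4) + b • (x4 * z4) + c • (z4 * z4)

/-- A binary cubic form in `x, z`. -/
def cubic4 (a b c e : ℤ) : PowerSeries ℤ :=
  a • (x4 * x4 * x4) + b • (x4 * x4 * z4) + c • (x4 * z4 * z4) + e • (z4 * z4 * z4)

theorem quad4_mem (a b c : ℤ) : quad4 a b c ∈ formSeries 4 4 :=
  add_mem (add_mem (zsmul_mem (mul_mem_formSeries x4_mem x4_mem) a)
    (zsmul_mem (mul_mem_formSeries x4_mem z4_mem) b))
    (zsmul_mem (mul_mem_formSeries z4_mem z4_mem) c)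

theorem cubic4_mem (a b c e : ℤ) : cubic4 a b c e ∈ formSeries 4 6 :=
  have hxx := mul_mem_formSeries x4_mem x4_mem
  have hxz := mul_mem_formSeries x4_mem z4_mem
  add_mem (add_mem (add_mem (zsmul_mem (mul_mem_formSeries hxx x4_mem) a)
    (zsmul_mem (mul_mem_formSeries hxx z4_mem) b))
    (zsmul_mem (mul_mem_formSeries hxz z4_mem) c))
    (zsmul_mem (mul_mem_formSeries (mul_mem_formSeries z4_mem z4_mem) z4_mem) e)

theorem eisenstein4_level4 : eisenstein4 = quad4 1 256 4096 := by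
  refine formSeries_eq (eisenstein4_mem 4) (quad4_mem _ _ _) 3 (by rw [dedekindPsi_four]; decide) ?_
  simp only [eisenstein4_eq_mk, quad4, x4, z4, mk_mul_mk, zsmul_mk, mk_add_mk,
    PowerSeries.coeff_mk]
  decide +kernel

theorem eisenstein4_two_level4 :
    PowerSeries.expand 2 two_ne_zero eisenstein4 = quad4 1 16 256 := by
  refine formSeries_eq (expand_mem_formSeries (d := 2) (M := 1) (by norm_num) (eisenstein4_mem 1))
    (quad4_mem _ _ _) 3 (by rw [dedekindPsi_four]; decide) ?_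
  simp only [eisenstein4_eq_mk, expand_mk, quad4, x4, z4, mk_mul_mk, zsmul_mk, mk_add_mk,
    PowerSeries.coeff_mk]
  decide +kernel

theorem eisenstein4_four_level4 :
    PowerSeries.expand 4 four_ne_zero eisenstein4 = quad4 1 16 16 := by
  refine formSeries_eq (expand_mem_formSeries (d := 4) (M := 1) (by norm_num) (eisenstein4_mem 1))
    (quad4_mem _ _ _) 3 (by rw [dedekindPsi_four]; decide) ?_
  simp only [eisenstein4_eq_mk, expand_mk, quad4, x4, z4, mk_mul_mk, zsmul_mk, mk_add_mk,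
    PowerSeries.coeff_mk]
  decide +kernel

theorem eisenstein6_level4 : eisenstein6 = cubic4 1 (-480) (-24576) (-262144) := by
  refine formSeries_eq (eisenstein6_mem 4) (cubic4_mem _ _ _ _) 4
    (by rw [dedekindPsi_four]; decide) ?_
  simp only [eisenstein6_eq_mk, cubic4, x4, z4, mk_mul_mk, zsmul_mk, mk_add_mk,
    PowerSeries.coeff_mk]
  decide +kernel

theorem eisenstein6_two_level4 :
    PowerSeries.expand 2 two_ne_zero eisenstein6 = cubic4 1 24 (-384) (-4096) := by
  refine formSeries_eq (expand_mem_formSeries (d := 2) (M := 1) (by norm_num) (eisenstein6_mem 1))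
    (cubic4_mem _ _ _ _) 4 (by rw [dedekindPsi_four]; decide) ?_
  simp only [eisenstein6_eq_mk, expand_mk, cubic4, x4, z4, mk_mul_mk, zsmul_mk, mk_add_mk,
    PowerSeries.coeff_mk]
  decide +kernel

theorem eisenstein6_four_level4 :
    PowerSeries.expand 4 four_ne_zero eisenstein6 = cubic4 1 24 120 (-64) := by
  refine formSeries_eq (expand_mem_formSeries (d := 4) (M := 1) (by norm_num) (eisenstein6_mem 1))
    (cubic4_mem _ _ _ _) 4 (by rw [dedekindPsi_four]; decide) ?_
  simp only [eisenstein6_eq_mk, expand_mk, cubic4, x4, z4, mk_mul_mk, zsmul_mk, mk_add_mk,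
    PowerSeries.coeff_mk]
  decide +kernel

end Fermat.Agent.RED.Hauptmodul
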