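import Fermat.Agent.RED.Hauptmodul.Basic
import Fermat.Agent.RED.Hauptmodul.Series4

/-!
# The Hauptmodul `t₄ = (η(τ)/η(4τ))⁸` of `X₀(4)`

`t⁴(t+16) j = (t²+256t+4096)³` and
`t⁴(t+16) (j - 1728) = ((t+32)(t²-512t-8192))²`; `t` is integral and lies in the function field.
-/

set_option autoImplicit false

noncomputable section

namespace Fermat.Agent.RED.Hauptmodul

open ModularCurve

/-- The unit part `z/q`. -/
def zShift4 : PowerSeries ℤ := PowerSeries.mk fun n => z4Seq (n + 1)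

theorem X_mul_zShift4 : PowerSeries.X * zShift4 = z4 := by
  ext n
  rcases n with _ | n
  · simp [z4, z4Seq]
  · simp [zShift4, z4, PowerSeries.coeff_succ_X_mul]

theorem zShift4_mul_inv : zShift4 * PowerSeries.invOfUnit zShift4 1 = 1 :=
  PowerSeries.mul_invOfUnit _ _ (by
    rw [← PowerSeries.coeff_zero_eq_constantCoeff, zShift4, PowerSeries.coeff_mk]
    decide +kernel)

/-- `t₄` with integral coefficients. -/
def t4Z : LaurentSeries ℤ := poleSeries (x4 * PowerSeries.invOfUnit zShift4 1)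

/-- `t₄ = q⁻¹ - 8 + 20q + ⋯`. -/
def t4 : LaurentSeries ℚ := coeffMap (Int.castRingHom ℚ) t4Z

theorem coeff_t4_neg_one : t4.coeff (-1) = 1 := by
  rw [t4, coeffMap_coeff, t4Z, coeff_poleSeries_neg_one, map_one]
  have h := congrArg PowerSeries.constantCoeff zShift4_mul_inv
  rw [map_mul, map_one] at h
  rw [map_mul, show PowerSeries.constantCoeff x4 = 1 by
    rw [← PowerSeries.coeff_zero_eq_constantCoeff, x4, PowerSeries.coeff_mk]; decide +kernel,
    one_mul, PowerSeries.constantCoeff_invOfUnit]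
  simp

theorem coeff_t4_of_lt {m : ℤ} (hm : m < -1) : t4.coeff m = 0 := by
  rw [t4, coeffMap_coeff, t4Z, coeff_poleSeries_of_lt _ hm, map_zero]

theorem t4_mul_lq_z4 : t4 * lq z4 = lq x4 := by
  have h : x4 * PowerSeries.invOfUnit zShift4 1 * zShift4 = x4 := by
    linear_combination x4 * zShift4_mul_inv
  rw [t4, t4Z, coeffMap_poleSeries, poleSeries, ← X_mul_zShift4]
  simp only [map_mul]
  rw [mul_mul_mul_comm]
  conv_rhs => rw [← h, map_mul]
  simp only [lq, RingHom.comp_apply, PowerSeries.map_X, HahnSeries.ofPowerSeries_X,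
    HahnSeries.single_mul_single]
  simp

theorem lq_z4_ne_zero : lq z4 ≠ 0 := by
  rw [map_ne_zero_iff _ lq_injective]
  intro h
  have := congrArg (PowerSeries.coeff 1) h
  rw [z4, PowerSeries.coeff_mk, map_zero, show z4Seq 1 = 1 by decide +kernel] at this
  exact one_ne_zero this

theorem lq_quad4 (a b c : ℤ) :
    lq (quad4 a b c) = lq z4 ^ 2 * ((a : LaurentSeries ℚ) * t4 ^ 2 + b * t4 + c) := by
  simp only [quad4, map_add, map_mul, ← t4_mul_lq_z4, zsmul_eq_mul, map_intCast]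
  ring

theorem lq_cubic4 (a b c e : ℤ) :
    lq (cubic4 a b c e) =
      lq z4 ^ 3 * ((a : LaurentSeries ℚ) * t4 ^ 3 + b * t4 ^ 2 + c * t4 + e) := by
  simp only [cubic4, map_add, map_mul, ← t4_mul_lq_z4, zsmul_eq_mul, map_intCast]
  ring

/-- The parametrisation of `j` by `t₄`. -/
theorem t4_mul_jq : t4 ^ 4 * (t4 + 16) * jq = (t4 ^ 2 + 256 * t4 + 4096) ^ 3 := by
  have h := param_of_relation 1 (S₄ := quad4 1 256 4096)
    (S₆ := cubic4 1 (-480) (-24576) (-262144))
    (P₄ := t4 ^ 2 + 256 * t4 + 4096) (P₆ := t4 ^ 3 - 480 * t4 ^ 2 - 24576 * t4 - 262144)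
    (q := t4 ^ 4 * (t4 + 16))
    (by rw [PowerSeries.expand_one, AlgHom.id_apply, eisenstein4_level4])
    (by rw [PowerSeries.expand_one, AlgHom.id_apply, eisenstein6_level4]) lq_z4_ne_zero
    (by rw [lq_quad4]; push_cast; ring) (by rw [lq_cubic4]; push_cast; ring) (by ring)
  rwa [qExpand_one_apply] at h

/-- `j - 1728` is a square over the denominator. -/
theorem t4_mul_jq_sub : t4 ^ 4 * (t4 + 16) * (jq - 1728) =
    ((t4 + 32) * (t4 ^ 2 - 512 * t4 - 8192)) ^ 2 := by
  linear_combination t4_mul_jq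

theorem t4_mul_jq_two :
    t4 ^ 2 * (t4 + 16) ^ 2 * qExpand ℚ 2 jq = (t4 ^ 2 + 16 * t4 + 256) ^ 3 :=
  param_of_relation 2 (S₄ := quad4 1 16 256) (S₆ := cubic4 1 24 (-384) (-4096))
    (P₄ := t4 ^ 2 + 16 * t4 + 256) (P₆ := t4 ^ 3 + 24 * t4 ^ 2 - 384 * t4 - 4096)
    eisenstein4_two_level4 eisenstein6_two_level4 lq_z4_ne_zero
    (by rw [lq_quad4]; push_cast; ring) (by rw [lq_cubic4]; push_cast; ring) (by ring)

theorem t4_mul_jq_four :
    t4 * (t4 + 16) * qExpand ℚ 4 jq = (t4 ^ 2 + 16 * t4 + 16) ^ 3 :=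
  param_of_relation 4 (S₄ := quad4 1 16 16) (S₆ := cubic4 1 24 120 (-64))
    (P₄ := t4 ^ 2 + 16 * t4 + 16) (P₆ := t4 ^ 3 + 24 * t4 ^ 2 + 120 * t4 - 64)
    eisenstein4_four_level4 eisenstein6_four_level4 lq_z4_ne_zero
    (by rw [lq_quad4]; push_cast; ring) (by rw [lq_cubic4]; push_cast; ring) (by ring)

/-- A level `2` parameter is rational in the two `j`-invariants. -/
theorem mem_of_param_two {F : IntermediateField ℚ (LaurentSeries ℚ)} {a b x : LaurentSeries ℚ}
    (ha : a ∈ F) (hb : b ∈ F) (hx : x.order < 0) (e₁ : x ^ 2 * a = (x + 256) ^ 3)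
    (e₂ : x * b = (x + 16) ^ 3) : x ∈ F := by
  have hx0 : x ≠ 0 := fun h => by simp [h] at hx
  have ea : a = (x + 256) ^ 3 / x ^ 2 := by rw [← e₁]; field_simp
  have eb : b = (x + 16) ^ 3 / x := by rw [← e₂]; field_simp
  set c₁ : LaurentSeries ℚ := -(a ^ 2 * b) + 768 * a ^ 2 + 1488 * a * b + 25067520 * a + b ^ 2
    - 161280 * b + 19906560000 with hc₁
  set c₀ : LaurentSeries ℚ := 4096 * a ^ 2 + 799211520 * a + 16773120 * b + 2707292160000
    with hc₀
  have hrel : c₁ * x + c₀ = 0 := by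
    rw [hc₁, hc₀, ea, eb]; field_simp; ring
  have hne : c₁ ≠ 0 := by
    intro h
    let A : Polynomial ℚ := (Polynomial.X + 256) ^ 3
    let B : Polynomial ℚ := (Polynomial.X + 16) ^ 3
    let P : Polynomial ℚ := -(A ^ 2 * B) + 768 * A ^ 2 * Polynomial.X
      + 1488 * A * B * Polynomial.X ^ 2 + 25067520 * A * Polynomial.X ^ 3
      + B ^ 2 * Polynomial.X ^ 3 - 161280 * B * Polynomial.X ^ 4 + 19906560000 * Polynomial.X ^ 5
    have hP : P ≠ 0 := fun h => by
      have := congrArg (Polynomial.eval 1) h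
      norm_num [P, A, B] at this
    refine (aeval_ne_zero_of_order_neg hx P hP).1 ?_
    have he : Polynomial.aeval x P = c₁ * x ^ 5 := by
      rw [hc₁, ea, eb]
      simp [P, A, B, map_ofNat]
      field_simp
    rw [he, h, zero_mul]
  lift a to F using ha with a'
  lift b to F using hb with b'
  have hmem₁ : c₁ ∈ F := by
    rw [show c₁ = ((-(a' ^ 2 * b') + 768 * a' ^ 2 + 1488 * a' * b' + 25067520 * a' + b' ^ 2
      - 161280 * b' + 19906560000 : F) : LaurentSeries ℚ) by push_cast; exact hc₁]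
    exact SetLike.coe_mem _
  have hmem₀ : c₀ ∈ F := by
    rw [show c₀ = ((4096 * a' ^ 2 + 799211520 * a' + 16773120 * b' + 2707292160000 : F) :
      LaurentSeries ℚ) by push_cast; exact hc₀]
    exact SetLike.coe_mem _
  rw [show x = -c₀ / c₁ by rw [eq_div_iff hne]; linear_combination hrel]
  exact div_mem (neg_mem hmem₀) hmem₁

/-- `t₄` lies in the function field of `X₀(4)`. -/
theorem t4_mem : t4 ∈ modularFunctionFieldFull 4 := by
  have h1 : qExpand ℚ 1 jq ∈ modularFunctionFieldFull 4 := jqd_mem_full 4 (one_dvd 4)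
  have h2 : qExpand ℚ 2 jq ∈ modularFunctionFieldFull 4 := jqd_mem_full 4 (by norm_num)
  have h4 : qExpand ℚ 4 jq ∈ modularFunctionFieldFull 4 := jqd_mem_full 4 dvd_rfl
  rw [qExpand_one_apply] at h1
  obtain ⟨ht0, hto⟩ := order_eq_neg_one coeff_t4_neg_one fun m => coeff_t4_of_lt
  obtain ⟨hu0, huo⟩ := add_const_order coeff_t4_neg_one (fun m => coeff_t4_of_lt) 16
  rw [map_ofNat] at hu0 huo
  set s : LaurentSeries ℚ := t4 ^ 2 / (t4 + 16) with hs
  have hsmul : s * (t4 + 16) = t4 ^ 2 := div_mul_cancel₀ _ hu0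
  have hs0 : s ≠ 0 := div_ne_zero (pow_ne_zero 2 ht0) hu0
  have hso : s.order < 0 := by
    have h := congrArg HahnSeries.order hsmul
    rw [HahnSeries.order_mul hs0 hu0, HahnSeries.order_pow, hto, huo] at h
    simp at h
    omega
  have hsmem : s ∈ modularFunctionFieldFull 4 := by
    refine mem_of_param_two h1 h2 hso ?_ ?_
    · rw [hs]
      field_simp
      linear_combination t4_mul_jq
    · rw [hs]
      field_simp
      linear_combination t4_mul_jq_two
  have hs'o : (t4 * (t4 + 16)).order < 0 := by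
    rw [HahnSeries.order_mul ht0 hu0, hto, huo]; norm_num
  have hs'mem : t4 * (t4 + 16) ∈ modularFunctionFieldFull 4 := by
    refine mem_of_param_two h2 h4 hs'o ?_ ?_
    · linear_combination t4_mul_jq_two
    · linear_combination t4_mul_jq_four
  have hs16 : s + 16 ≠ 0 := by
    have := (aeval_ne_zero_of_order_neg hso (Polynomial.X + Polynomial.C 16)
      (Polynomial.X_add_C_ne_zero 16)).1
    rwa [map_add, Polynomial.aeval_X, Polynomial.aeval_C, map_ofNat] at this
  rw [show t4 = (t4 * (t4 + 16) - 16 * s) / (s + 16) by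
    rw [eq_div_iff hs16]; linear_combination hsmul]
  exact div_mem (sub_mem hs'mem (mul_mem (ofNat_mem _ _) hsmem)) (add_mem hsmem (ofNat_mem _ _))

end Fermat.Agent.RED.Hauptmodul
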