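import Fermat.Agent.RED.Hauptmodul.Basic

/-!
# A level `3` parameter is rational in the two `j`-invariants
-/

set_option autoImplicit false

noncomputable section

namespace Fermat.Agent.RED.Hauptmodul

/-- If `x³a = (x+27)(x+243)³` and `xb = (x+27)(x+3)³` with `x` transcendental, then
`x` is rational in `a, b` (a step of Euclid's algorithm on the two quartics). -/
theorem mem_of_param_three {F : IntermediateField ℚ (LaurentSeries ℚ)}
    {a b x : LaurentSeries ℚ} (ha : a ∈ F) (hb : b ∈ F) (hx : x.order < 0)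
    (e₁ : x ^ 3 * a = (x + 27) * (x + 243) ^ 3) (e₂ : x * b = (x + 27) * (x + 3) ^ 3) :
    x ∈ F := by
  have hx0 : x ≠ 0 := fun h => by simp [h] at hx
  have ea : a = (x + 27) * (x + 243) ^ 3 / x ^ 3 := by rw [← e₁]; field_simp
  have eb : b = (x + 27) * (x + 3) ^ 3 / x := by rw [← e₂]; field_simp
  set c₁ : LaurentSeries ℚ := 0 - 1 * a ^ 5 * b ^ 2 + 1512 * a ^ 5 * b ^ 1 - 374706 * a ^ 5 + 3672 * a ^ 4 * b ^ 2 +
    2199927357 * a ^ 4 * b ^ 1 + 3513587135760 * a ^ 4 - 4802436 * a ^ 3 * b ^ 2 +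
    6287091255360 * a ^ 3 * b ^ 1 - 578039691371443200 * a ^ 3 + 1 * a ^ 2 * b ^ 3 +
    2734670160 * a ^ 2 * b ^ 2 - 12148776475948800 * a ^ 2 * b ^ 1 + 3468720924518404608000 *
    a ^ 2 - 1440 * a ^ 1 * b ^ 3 - 607750387200 * a ^ 1 * b ^ 2 + 4430048196934656000 * a ^ 1
    * b ^ 1 - 4101236057280872448000000 * a ^ 1 + 518400 * b ^ 3 + 19110670848000 * b ^ 2 +
    170148916887552000000 * b ^ 1 + 1369513028852121600000000000 with hc₁
  set c₀ : LaurentSeries ℚ := 0 + 729 * a ^ 5 * b ^ 1 - 551124 * a ^ 5 + 13944460716 * a ^ 4 * b ^ 1 + 16877673339120 *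
    a ^ 4 + 35694226104480 * a ^ 3 * b ^ 1 - 10379169493558848000 * a ^ 3 + 387419760 * a ^ 2
    * b ^ 2 - 108392996345702400 * a ^ 2 * b ^ 1 + 86248560322019464704000 * a ^ 2 -
    557884454400 * a ^ 1 * b ^ 2 + 79754306454770688000 * a ^ 1 * b ^ 1 -
    108081439958057877504000000 * a ^ 1 + 200838403584000 * b ^ 2 - 18302525195157504000000 *
    b ^ 1 + 36976851779007283200000000000 with hc₀
  have hrel : c₁ * x + c₀ = 0 := by
    rw [hc₁, hc₀, ea, eb]
    field_simp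
    ring
  have hne : c₁ ≠ 0 := by
    intro h
    let A : Polynomial ℚ := (Polynomial.X + 27) * (Polynomial.X + 243) ^ 3
    let B : Polynomial ℚ := (Polynomial.X + 27) * (Polynomial.X + 3) ^ 3
    let P : Polynomial ℚ := 0 - 1 * A ^ 5 * B ^ 2 * Polynomial.X ^ 1 + 1512 * A ^ 5 * B ^ 1 * Polynomial.X ^ 2 -
      374706 * A ^ 5 * Polynomial.X ^ 3 + 3672 * A ^ 4 * B ^ 2 * Polynomial.X ^ 4 + 2199927357
      * A ^ 4 * B ^ 1 * Polynomial.X ^ 5 + 3513587135760 * A ^ 4 * Polynomial.X ^ 6 - 4802436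
      * A ^ 3 * B ^ 2 * Polynomial.X ^ 7 + 6287091255360 * A ^ 3 * B ^ 1 * Polynomial.X ^ 8 -
      578039691371443200 * A ^ 3 * Polynomial.X ^ 9 + 1 * A ^ 2 * B ^ 3 * Polynomial.X ^ 9 +
      2734670160 * A ^ 2 * B ^ 2 * Polynomial.X ^ 10 - 12148776475948800 * A ^ 2 * B ^ 1 *
      Polynomial.X ^ 11 + 3468720924518404608000 * A ^ 2 * Polynomial.X ^ 12 - 1440 * A ^ 1 *
      B ^ 3 * Polynomial.X ^ 12 - 607750387200 * A ^ 1 * B ^ 2 * Polynomial.X ^ 13 +
      4430048196934656000 * A ^ 1 * B ^ 1 * Polynomial.X ^ 14 - 4101236057280872448000000 * A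
      ^ 1 * Polynomial.X ^ 15 + 518400 * B ^ 3 * Polynomial.X ^ 15 + 19110670848000 * B ^ 2 *
      Polynomial.X ^ 16 + 170148916887552000000 * B ^ 1 * Polynomial.X ^ 17 +
      1369513028852121600000000000 * Polynomial.X ^ 18
    have hP : P ≠ 0 := fun h => by
      have := congrArg (Polynomial.eval 1) h
      norm_num [P, A, B] at this
    refine (aeval_ne_zero_of_order_neg hx P hP).1 ?_
    have he : Polynomial.aeval x P = c₁ * x ^ 18 := by
      rw [hc₁, ea, eb]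
      simp [P, A, B, map_ofNat]
      field_simp
    rw [he, h, zero_mul]
  lift a to F using ha with a'
  lift b to F using hb with b'
  have hmem₁ : c₁ ∈ F := by
    rw [show c₁ = ((0 - 1 * a' ^ 5 * b' ^ 2 + 1512 * a' ^ 5 * b' ^ 1 - 374706 * a' ^ 5 + 3672 * a' ^ 4 * b' ^ 2 +
    2199927357 * a' ^ 4 * b' ^ 1 + 3513587135760 * a' ^ 4 - 4802436 * a' ^ 3 * b' ^ 2 +
    6287091255360 * a' ^ 3 * b' ^ 1 - 578039691371443200 * a' ^ 3 + 1 * a' ^ 2 * b' ^ 3 +
    2734670160 * a' ^ 2 * b' ^ 2 - 12148776475948800 * a' ^ 2 * b' ^ 1 + 3468720924518404608000 *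
    a' ^ 2 - 1440 * a' ^ 1 * b' ^ 3 - 607750387200 * a' ^ 1 * b' ^ 2 + 4430048196934656000 * a' ^ 1
    * b' ^ 1 - 4101236057280872448000000 * a' ^ 1 + 518400 * b' ^ 3 + 19110670848000 * b' ^ 2 +
    170148916887552000000 * b' ^ 1 + 1369513028852121600000000000 : F) : LaurentSeries ℚ) by
      push_cast; exact hc₁]
    exact SetLike.coe_mem _
  have hmem₀ : c₀ ∈ F := by
    rw [show c₀ = ((0 + 729 * a' ^ 5 * b' ^ 1 - 551124 * a' ^ 5 + 13944460716 * a' ^ 4 * b' ^ 1 + 16877673339120 *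
    a' ^ 4 + 35694226104480 * a' ^ 3 * b' ^ 1 - 10379169493558848000 * a' ^ 3 + 387419760 * a' ^ 2
    * b' ^ 2 - 108392996345702400 * a' ^ 2 * b' ^ 1 + 86248560322019464704000 * a' ^ 2 -
    557884454400 * a' ^ 1 * b' ^ 2 + 79754306454770688000 * a' ^ 1 * b' ^ 1 -
    108081439958057877504000000 * a' ^ 1 + 200838403584000 * b' ^ 2 - 18302525195157504000000 *
    b' ^ 1 + 36976851779007283200000000000 : F) : LaurentSeries ℚ) by
      push_cast; exact hc₀]
    exact SetLike.coe_mem _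
  rw [show x = -c₀ / c₁ by rw [eq_div_iff hne]; linear_combination hrel]
  exact div_mem (neg_mem hmem₀) hmem₁

end Fermat.Agent.RED.Hauptmodul
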