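import Fermat.Agent.RED.Hauptmodul.FormSeries
import Mathlib.LinearAlgebra.Matrix.GeneralLinearGroup.Defs

/-!
# Twisting a form on `Γ₀(3)` by the quadratic character modulo `3`

`f(τ + 1/3) - f(τ + 2/3)` is a form on `Γ₀(9)`; on `q`-series this multiplies the `n`-th
coefficient by `χ(n) · i√3`.
-/

set_option autoImplicit false

noncomputable section

namespace Fermat.Agent.RED.Hauptmodul

open UpperHalfPlane Function CongruenceSubgroup Fermat.Agent.MF Fermat.Agent.EIS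
open Matrix.SpecialLinearGroup
open scoped MatrixGroups ModularForm Manifold Real Pointwise

/-- The translate `f ∣ g` by a rational matrix conjugating `Γ₀(N)` into `Γ₀(M)`. -/
def translateGamma0 {M N : ℕ} [NeZero M] [NeZero N] {k : ℤ} (f : MForm M k)
    (g₀ : GL (Fin 2) ℚ)
    (hc : ∀ γ ∈ Gamma0 N, ∃ γ' ∈ Gamma0 M,
      g₀.map (Rat.castHom ℝ) * mapGL ℝ γ = mapGL ℝ γ' * g₀.map (Rat.castHom ℝ)) :
    MForm N k where
  toFun := ⇑f ∣[k] g₀.map (Rat.castHom ℝ)
  slash_action_eq' := by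
    rintro _ ⟨γ, hγ, rfl⟩
    obtain ⟨γ', hγ', heq⟩ := hc γ hγ
    rw [← SlashAction.slash_mul, heq, SlashAction.slash_mul,
      SlashInvariantFormClass.slash_action_eq f _ (Subgroup.mem_map_of_mem _ hγ')]
  holo' := (ModularFormClass.holo f).slash k _
  bdd_at_cusps' := by
    intro c hc'
    have : (ConjAct.toConjAct (g₀.map (Rat.castHom ℝ))⁻¹ •
        ((Gamma0 M : Subgroup SL(2, ℤ)) : Subgroup (GL (Fin 2) ℝ))).IsArithmetic := by
      have := Subgroup.IsArithmetic.conj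
        ((Gamma0 M : Subgroup SL(2, ℤ)) : Subgroup (GL (Fin 2) ℝ)) g₀⁻¹
      rwa [map_inv] at this
    rw [Subgroup.IsArithmetic.isCusp_iff_isCusp_SL2Z] at hc'
    exact ModularFormClass.bdd_at_cusps (ModularForm.translate f (g₀.map (Rat.castHom ℝ)))
      ((Subgroup.IsArithmetic.isCusp_iff_isCusp_SL2Z _).mpr hc')

/-- `τ ↦ τ + j / 3`. -/
def shiftThird (j : ℤ) : GL (Fin 2) ℚ :=
  Matrix.GeneralLinearGroup.mkOfDetNeZero !![1, (j : ℚ) / 3; 0, 1] (by simp [Matrix.det_fin_two_of])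

theorem shiftThird_conj (j : ℤ) : ∀ γ ∈ Gamma0 9, ∃ γ' ∈ Gamma0 3,
    (shiftThird j).map (Rat.castHom ℝ) * mapGL ℝ γ =
      mapGL ℝ γ' * (shiftThird j).map (Rat.castHom ℝ) := by
  intro γ hγ
  obtain ⟨c, hc⟩ := (ZMod.intCast_zmod_eq_zero_iff_dvd _ _).mp (Gamma0_mem.mp hγ)
  have hdet := γ.2
  rw [Matrix.det_fin_two] at hdet
  obtain ⟨m, hm⟩ : (3 : ℤ) ∣ γ 1 1 - γ 0 0 := by
    have h : ((γ 0 0 : ℤ) : ZMod 3) * ((γ 1 1 : ℤ) : ZMod 3) = 1 := by
      have := congrArg (Int.cast : ℤ → ZMod 3) hdet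
      simp only [hc, Nat.cast_ofNat, Int.cast_sub, Int.cast_mul, Int.cast_one, Int.cast_ofNat,
        show (9 : ZMod 3) = 0 by decide, zero_mul, mul_zero, sub_zero] at this
      exact this
    refine (ZMod.intCast_zmod_eq_zero_iff_dvd _ 3).mp ?_
    push_cast
    revert h
    generalize ((γ 0 0 : ℤ) : ZMod 3) = x
    generalize ((γ 1 1 : ℤ) : ZMod 3) = y
    revert x y
    decide
  let A : Matrix (Fin 2) (Fin 2) ℤ :=
    !![γ 0 0 + 3 * j * c, γ 0 1 + j * m - j ^ 2 * c; 9 * c, γ 1 1 - 3 * j * c]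
  have hA : A.det = 1 := by
    push_cast at hc
    rw [Matrix.det_fin_two_of]
    linear_combination hdet + 3 * j * c * hm + γ 0 1 * hc
  refine ⟨⟨A, hA⟩, ?_, ?_⟩
  · refine Gamma0_mem.mpr ?_
    show ((A 1 0 : ℤ) : ZMod 3) = 0
    simp [A, show (9 : ZMod 3) = 0 by decide]
  · apply Units.ext
    rw [Units.val_mul, Units.val_mul]
    show _ * (γ : Matrix (Fin 2) (Fin 2) ℤ).map (Int.castRingHom ℝ) =
      A.map (Int.castRingHom ℝ) * _
    have hm' : ((γ 1 1 : ℤ) : ℝ) - (γ 0 0 : ℤ) = 3 * m := by exact_mod_cast hm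
    ext i j'
    fin_cases i <;> fin_cases j' <;>
      simp [A, shiftThird, Matrix.mul_apply, Fin.sum_univ_two, hc] <;>
      first
        | ring1
        | linear_combination (j : ℝ) / 3 * hm'

theorem slash_shiftThird (j : ℤ) (k : ℤ) (f : ℍ → ℂ) (τ : ℍ) :
    ∃ τ' : ℍ, (τ' : ℂ) = (τ : ℂ) + (j : ℂ) / 3 ∧
      (f ∣[k] (shiftThird j).map (Rat.castHom ℝ)) τ = f τ' := by
  set g := (shiftThird j).map (Rat.castHom ℝ)
  have hg : (g : Matrix (Fin 2) (Fin 2) ℝ) = !![1, (j : ℝ) / 3; 0, 1] := by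
    ext i k'
    fin_cases i <;> fin_cases k' <;> simp [g, shiftThird]
  have hdet : g.det.val = 1 := by simp [Matrix.GeneralLinearGroup.val_det_apply, hg, Matrix.det_fin_two_of]
  refine ⟨g • τ, ?_, ?_⟩
  · rw [UpperHalfPlane.coe_smul_of_det_pos (by rw [hdet]; norm_num)]
    simp [num, denom, hg]
  · rw [ModularForm.slash_apply]
    simp [UpperHalfPlane.σ, hdet, denom, hg]

/-- The quadratic character modulo `3`. -/
def chiThree (n : ℕ) : ℤ := if n % 3 = 1 then 1 else if n % 3 = 2 then -1 else 0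

theorem twist_mem {k : ℤ} {S : PowerSeries ℤ} (hS : S ∈ formSeries 3 k) :
    PowerSeries.mk (fun n => chiThree n * S.coeff n) ∈ formSeries 9 k := by
  obtain ⟨F, hF⟩ := hS
  have hq := isQSer_mform F
  rw [hF] at hq
  set ω : ℂ := Complex.exp (2 * π * Complex.I / 3) with hω
  have hω3 : ω ^ 3 = 1 := by
    rw [hω, ← Complex.exp_nat_mul, show ((3 : ℕ) : ℂ) * (2 * π * Complex.I / 3) = 2 * π * Complex.I by
      push_cast; ring, Complex.exp_two_pi_mul_I]
  have hne : ω - ω ^ 2 ≠ 0 := by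
    have hp := Complex.isPrimitiveRoot_exp 3 (by norm_num)
    rw [show ω - ω ^ 2 = ω * (1 - ω) by ring]
    refine mul_ne_zero (Complex.exp_ne_zero _) (sub_ne_zero.mpr (Ne.symm ?_))
    simpa [hω] using hp.ne_one (by norm_num)
  have hshift : ∀ j : ℕ, IsQSer 1 (translateGamma0 F (shiftThird j) (shiftThird_conj j) : ℍ → ℂ)
      (PowerSeries.mk fun n => ω ^ (j * n) * (castPS S).coeff n) := by
    intro j τ
    obtain ⟨τ', hτ', he⟩ := slash_shiftThird (j : ℤ) k (F : ℍ → ℂ) τ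
    change HasSum _ ((⇑F ∣[k] (shiftThird (j : ℤ)).map (Rat.castHom ℝ)) τ)
    rw [he]
    refine (hq τ').congr_fun fun n => ?_
    rw [PowerSeries.coeff_mk, hτ', hω, Periodic.qParam, Periodic.qParam, ← Complex.exp_nat_mul,
      ← Complex.exp_nat_mul, ← Complex.exp_nat_mul,
      mul_comm (Complex.exp _) ((castPS S).coeff n), mul_assoc, ← Complex.exp_add]
    congr 2
    push_cast
    ring
  refine mem_formSeries_of_isQSer ((ω - ω ^ 2)⁻¹ •
    (translateGamma0 F (shiftThird (1 : ℕ)) (shiftThird_conj _) +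
      (-1 : ℂ) • translateGamma0 F (shiftThird (2 : ℕ)) (shiftThird_conj _))) ?_
  rw [FunLike.coe_smul, FunLike.coe_add, FunLike.coe_smul]
  have e : castPS (PowerSeries.mk fun n => chiThree n * S.coeff n) = (ω - ω ^ 2)⁻¹ •
      ((PowerSeries.mk fun n => ω ^ (1 * n) * (castPS S).coeff n) +
        (-1 : ℂ) • (PowerSeries.mk fun n => ω ^ (2 * n) * (castPS S).coeff n)) := by
    ext n
    simp only [map_add, PowerSeries.coeff_smul, PowerSeries.coeff_map, PowerSeries.coeff_mk,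
      smul_eq_mul, Int.cast_mul, eq_intCast]
    have h1 : ω ^ (1 * n) = ω ^ (n % 3) := by
      rw [one_mul]
      conv_lhs => rw [← Nat.div_add_mod n 3, pow_add, pow_mul, hω3, one_pow, one_mul]
    rw [h1, show ω ^ (2 * n) = (ω ^ (1 * n)) ^ 2 by rw [← pow_mul]; ring_nf, h1]
    have h4 : ω ^ 4 = ω := by rw [pow_succ, hω3, one_mul]
    have := Nat.mod_lt n (show 3 > 0 by norm_num)
    unfold chiThree
    have hinv := mul_inv_cancel₀ hne
    interval_cases hn : n % 3 <;> simp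
    · linear_combination (-(S.coeff n : ℂ)) * hinv
    · ring_nf at hinv ⊢
      rw [h4]
      linear_combination (S.coeff n : ℂ) * hinv
  rw [e]
  exact ((hshift 1).add ((hshift 2).smul (-1))).smul _

end Fermat.Agent.RED.Hauptmodul
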