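import Fermat.Agent.RED.Hauptmodul.FormSeries
import Fermat.Agent.RED.Hauptmodul.Twist
import Mathlib.Algebra.BigOperators.Group.Finset.Basic

/-!
# `E₄` and `E₆` in terms of weight two forms `w, x, z` of level 9

With `z = η(9τ)⁶/η(3τ)²` and `t = (η(τ)/η(9τ))³`, the forms are `x = t z` and `w = t² z`;
they are written down through Eisenstein series.
-/

set_option autoImplicit false

noncomputable section

namespace Fermat.Agent.RED.Hauptmodul

open ModularCurve Fermat.Agent.MF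

/-- `(3E₂(3τ) - E₂(τ))/2`. -/
def a3Seq : ℕ → ℤ := eisSeq 3 12

/-- The same at `3τ`. -/
def b3Seq (n : ℕ) : ℤ := if 3 ∣ n then a3Seq (n / 3) else 0

/-- `x = ∑ χ₋₃(n) σ(n) qⁿ`. -/
def x9Seq (n : ℕ) : ℤ := chiThree n * sigmaAway 3 n

/-- `z = ∑_{n ≡ 2 (3)} σ(n)/3 qⁿ`. -/
def z9Seq (n : ℕ) : ℤ := if n % 3 = 2 then sigmaAway 3 n / 3 else 0

/-- `w = B - 6x - 9z`. -/
def w9Seq (n : ℕ) : ℤ := b3Seq n - 6 * x9Seq n - 9 * z9Seq n

/-- The series `x` of level 9. -/
def x9 : PowerSeries ℤ := PowerSeries.mk x9Seq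

/-- The series `z` of level 9. -/
def z9 : PowerSeries ℤ := PowerSeries.mk z9Seq

/-- The series `w` of level 9. -/
def w9 : PowerSeries ℤ := PowerSeries.mk w9Seq

/-- Pairing `d` with `n / d` shows `3 ∣ σ(n)` for `n ≡ 2 (mod 3)`. -/
theorem three_dvd_sigmaAway {n : ℕ} (hn : n % 3 = 2) : (3 : ℤ) ∣ sigmaAway 3 n := by
  rw [sigmaAway_of_not_dvd 3 (by omega)]
  refine (ZMod.intCast_zmod_eq_zero_iff_dvd _ 3).mp ?_
  push_cast
  have hmul : ∀ d ∈ n.divisors, (d : ZMod 3) * ((n / d : ℕ) : ZMod 3) = 2 := by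
    intro d hd
    rw [← Nat.cast_mul, Nat.mul_div_cancel' (Nat.dvd_of_mem_divisors hd)]
    rw [show (n : ZMod 3) = ((n % 3 : ℕ) : ZMod 3) from (ZMod.natCast_mod n 3).symm, hn]
    rfl
  refine Finset.sum_involution (fun d _ => n / d) (fun d hd => ?_) (fun d hd hne => ?_)
    (fun d hd => Nat.mem_divisors.mpr
      ⟨Nat.div_dvd_of_dvd (Nat.dvd_of_mem_divisors hd), by omega⟩)
    (fun d hd => Nat.div_div_self (Nat.dvd_of_mem_divisors hd) (by omega))
  · have h := hmul d hd
    revert h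
    generalize (d : ZMod 3) = u
    generalize ((n / d : ℕ) : ZMod 3) = v
    revert u v
    decide
  · intro heq
    have h := hmul d hd
    rw [heq] at h
    revert h hne
    generalize (d : ZMod 3) = u
    revert u
    decide

theorem a3_sub_b3 (n : ℕ) : a3Seq n - b3Seq n - 12 * x9Seq n = 72 * z9Seq n := by
  rcases eq_or_ne n 0 with rfl | hn
  · simp [a3Seq, b3Seq, x9Seq, z9Seq, eisSeq, chiThree]
  have h3 : n % 3 = 0 ∨ n % 3 = 1 ∨ n % 3 = 2 := by omega
  rcases h3 with h | h | h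
  · obtain ⟨m, rfl⟩ : 3 ∣ n := Nat.dvd_of_mod_eq_zero h
    have hm : m ≠ 0 := by simpa using hn
    simp [a3Seq, b3Seq, x9Seq, z9Seq, eisSeq, chiThree, hm, sigmaAway_mul 3 m]
  · have hd : ¬ 3 ∣ n := by omega
    simp [a3Seq, b3Seq, x9Seq, z9Seq, eisSeq, chiThree, hn, hd, h]
  · have hd : ¬ 3 ∣ n := by omega
    obtain ⟨e, he⟩ := three_dvd_sigmaAway h
    simp [a3Seq, b3Seq, x9Seq, z9Seq, eisSeq, chiThree, hn, hd, h, he]
    ring

theorem b3_mem : PowerSeries.mk b3Seq ∈ formSeries 9 2 := by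
  have := expand_mem_formSeries (d := 3) (N := 9) (by norm_num) (eisSeq_mem 3 12 (by norm_num))
  rwa [expand_mk] at this

theorem x9_mem : x9 ∈ formSeries 9 2 := by
  have h := twist_mem (eisSeq_mem 3 12 (by norm_num))
  simp only [PowerSeries.coeff_mk] at h
  refine mem_formSeries_of_zsmul (n := 12) (by norm_num) ?_
  rw [x9, zsmul_mk]
  refine (congrArg (· ∈ formSeries 9 2) (congrArg PowerSeries.mk (funext fun n => ?_))).mp h
  rcases eq_or_ne n 0 with rfl | hn
  · simp [x9Seq, chiThree]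
  · simp [x9Seq, eisSeq, hn]; ring

theorem z9_mem : z9 ∈ formSeries 9 2 := by
  refine mem_formSeries_of_zsmul (n := 72) (by norm_num) ?_
  have h := sub_mem (sub_mem (mem_formSeries_of_dvd (M := 3) (N := 9) (by norm_num)
    (eisSeq_mem 3 12 (by norm_num))) b3_mem) (zsmul_mem x9_mem 12)
  rw [x9, zsmul_mk, mk_sub_mk, mk_sub_mk] at h
  rw [z9, zsmul_mk]
  exact (congrArg (· ∈ formSeries 9 2) (congrArg PowerSeries.mk (funext a3_sub_b3))).mp h

theorem w9_mem : w9 ∈ formSeries 9 2 := by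
  have h := sub_mem (sub_mem b3_mem (zsmul_mem x9_mem 6)) (zsmul_mem z9_mem 9)
  rwa [x9, z9, zsmul_mk, zsmul_mk, mk_sub_mk, mk_sub_mk] at h

theorem dedekindPsi_nine : dedekindPsi 9 = 12 := by decide +kernel

/-- A form of weight 4 in `w, x, z`. -/
def quad9 (a b c d e : ℤ) : PowerSeries ℤ :=
  a • (w9 * w9) + b • (w9 * x9) + c • (w9 * z9) + d • (x9 * z9) + e • (z9 * z9)

/-- A form of weight 6 in `w, x, z`. -/
def cubic9 (a b c d e f g : ℤ) : PowerSeries ℤ :=
  a • (w9 * w9 * w9) + b • (w9 * w9 * x9) + c • (w9 * w9 * z9) + d • (w9 * x9 * z9) +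
    e • (w9 * z9 * z9) + f • (x9 * z9 * z9) + g • (z9 * z9 * z9)

theorem quad9_mem (a b c d e : ℤ) : quad9 a b c d e ∈ formSeries 9 4 :=
  add_mem (add_mem (add_mem (add_mem
    (zsmul_mem (mul_mem_formSeries w9_mem w9_mem) a)
    (zsmul_mem (mul_mem_formSeries w9_mem x9_mem) b))
    (zsmul_mem (mul_mem_formSeries w9_mem z9_mem) c))
    (zsmul_mem (mul_mem_formSeries x9_mem z9_mem) d))
    (zsmul_mem (mul_mem_formSeries z9_mem z9_mem) e)

theorem cubic9_mem (a b c d e f g : ℤ) : cubic9 a b c d e f g ∈ formSeries 9 6 :=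
  have hww := mul_mem_formSeries w9_mem w9_mem
  have hzz := mul_mem_formSeries z9_mem z9_mem
  add_mem (add_mem (add_mem (add_mem (add_mem (add_mem
    (zsmul_mem (mul_mem_formSeries hww w9_mem) a)
    (zsmul_mem (mul_mem_formSeries hww x9_mem) b))
    (zsmul_mem (mul_mem_formSeries hww z9_mem) c))
    (zsmul_mem (mul_mem_formSeries (mul_mem_formSeries w9_mem x9_mem) z9_mem) d))
    (zsmul_mem (mul_mem_formSeries (mul_mem_formSeries w9_mem z9_mem) z9_mem) e))
    (zsmul_mem (mul_mem_formSeries (mul_mem_formSeries x9_mem z9_mem) z9_mem) f))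
    (zsmul_mem (mul_mem_formSeries hzz z9_mem) g)

theorem x9_sq : x9 * x9 = w9 * z9 := by
  refine formSeries_eq (mul_mem_formSeries x9_mem x9_mem) (mul_mem_formSeries w9_mem z9_mem) 5
    (by rw [dedekindPsi_nine]; decide) ?_
  simp only [x9, w9, z9, mk_mul_mk, PowerSeries.coeff_mk]
  decide +kernel

theorem eisenstein4_level9 : eisenstein4 = quad9 1 252 4374 26244 59049 := by
  refine formSeries_eq (eisenstein4_mem 9) (quad9_mem _ _ _ _ _) 5
    (by rw [dedekindPsi_nine]; decide) ?_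
  simp only [eisenstein4_eq_mk, quad9, x9, w9, z9, mk_mul_mk, zsmul_mk, mk_add_mk,
    PowerSeries.coeff_mk]
  decide +kernel

theorem eisenstein4_three_level9 :
    PowerSeries.expand 3 three_ne_zero eisenstein4 = quad9 1 12 54 324 729 := by
  refine formSeries_eq (expand_mem_formSeries (d := 3) (M := 1) (by norm_num) (eisenstein4_mem 1))
    (quad9_mem _ _ _ _ _) 5 (by rw [dedekindPsi_nine]; decide) ?_
  simp only [eisenstein4_eq_mk, expand_mk, quad9, x9, w9, z9, mk_mul_mk, zsmul_mk, mk_add_mk,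
    PowerSeries.coeff_mk]
  decide +kernel

theorem eisenstein4_nine_level9 :
    PowerSeries.expand 9 (by norm_num) eisenstein4 = quad9 1 12 54 84 9 := by
  refine formSeries_eq (expand_mem_formSeries (d := 9) (M := 1) (by norm_num) (eisenstein4_mem 1))
    (quad9_mem _ _ _ _ _) 5 (by rw [dedekindPsi_nine]; decide) ?_
  simp only [eisenstein4_eq_mk, expand_mk, quad9, x9, w9, z9, mk_mul_mk, zsmul_mk, mk_add_mk,
    PowerSeries.coeff_mk]
  decide +kernel

theorem eisenstein6_level9 :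
    eisenstein6 = cubic9 1 (-486) (-24057) (-367416) (-2657205) (-9565938) (-14348907) := by
  refine formSeries_eq (eisenstein6_mem 9) (cubic9_mem _ _ _ _ _ _ _) 7
    (by rw [dedekindPsi_nine]; decide) ?_
  simp only [eisenstein6_eq_mk, cubic9, x9, w9, z9, mk_mul_mk, zsmul_mk, mk_add_mk,
    PowerSeries.coeff_mk]
  decide +kernel

theorem eisenstein6_three_level9 :
    PowerSeries.expand 3 three_ne_zero eisenstein6 =
      cubic9 1 18 135 0 (-3645) (-13122) (-19683) := by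
  refine formSeries_eq (expand_mem_formSeries (d := 3) (M := 1) (by norm_num) (eisenstein6_mem 1))
    (cubic9_mem _ _ _ _ _ _ _) 7 (by rw [dedekindPsi_nine]; decide) ?_
  simp only [eisenstein6_eq_mk, expand_mk, cubic9, x9, w9, z9, mk_mul_mk, zsmul_mk, mk_add_mk,
    PowerSeries.coeff_mk]
  decide +kernel

theorem eisenstein6_nine_level9 :
    PowerSeries.expand 9 (by norm_num) eisenstein6 = cubic9 1 18 135 504 891 486 (-27) := by
  refine formSeries_eq (expand_mem_formSeries (d := 9) (M := 1) (by norm_num) (eisenstein6_mem 1))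
    (cubic9_mem _ _ _ _ _ _ _) 7 (by rw [dedekindPsi_nine]; decide) ?_
  simp only [eisenstein6_eq_mk, expand_mk, cubic9, x9, w9, z9, mk_mul_mk, zsmul_mk, mk_add_mk,
    PowerSeries.coeff_mk]
  decide +kernel

end Fermat.Agent.RED.Hauptmodul
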