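import Fermat.Agent.RED.Hauptmodul.Basic
import Fermat.Agent.RED.Hauptmodul.ParamThree
import Fermat.Agent.RED.Hauptmodul.Series9

/-!
# The Hauptmodul `t₉ = (η(τ)/η(9τ))³` of `X₀(9)`

`t⁹(t²+9t+27) j = ((t+9)(t³+243t²+2187t+6561))³` and `t⁹(t²+9t+27)(j - 1728)` is a square;
`t` is integral and lies in the function field.
-/

set_option autoImplicit false

noncomputable section

namespace Fermat.Agent.RED.Hauptmodul

open ModularCurve

/-- The unit part `z/q²`. -/
def zShift9 : PowerSeries ℤ := PowerSeries.mk fun n => z9Seq (n + 2)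

/-- The unit part `x/q`. -/
def xShift9 : PowerSeries ℤ := PowerSeries.mk fun n => x9Seq (n + 1)

theorem X_mul_xShift9 : PowerSeries.X * xShift9 = x9 := by
  ext n
  rcases n with _ | n
  · simp [x9, x9Seq, chiThree]
  · simp [xShift9, x9, PowerSeries.coeff_succ_X_mul]

theorem X_sq_mul_zShift9 : PowerSeries.X ^ 2 * zShift9 = z9 := by
  ext n
  rcases n with _ | _ | n
  · simp [z9, z9Seq, pow_two, mul_assoc]
  · simp [z9, z9Seq, pow_two, mul_assoc, PowerSeries.coeff_succ_X_mul]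
  · simp [zShift9, z9, pow_two, mul_assoc, PowerSeries.coeff_succ_X_mul]

theorem constantCoeff_zShift9 : PowerSeries.constantCoeff zShift9 = 1 := by
  rw [← PowerSeries.coeff_zero_eq_constantCoeff, zShift9, PowerSeries.coeff_mk]
  decide +kernel

/-- `t₉` with integral coefficients. -/
def t9Z : LaurentSeries ℤ := poleSeries (xShift9 * PowerSeries.invOfUnit zShift9 1)

/-- `t₉ = q⁻¹ - 3 + 5q² + ⋯`. -/
def t9 : LaurentSeries ℚ := coeffMap (Int.castRingHom ℚ) t9Z

theorem coeff_t9_neg_one : t9.coeff (-1) = 1 := by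
  rw [t9, coeffMap_coeff, t9Z, coeff_poleSeries_neg_one, map_one]
  rw [map_mul, show PowerSeries.constantCoeff xShift9 = 1 by
    rw [← PowerSeries.coeff_zero_eq_constantCoeff, xShift9, PowerSeries.coeff_mk]; decide +kernel,
    one_mul, PowerSeries.constantCoeff_invOfUnit]
  simp

theorem coeff_t9_of_lt {m : ℤ} (hm : m < -1) : t9.coeff m = 0 := by
  rw [t9, coeffMap_coeff, t9Z, coeff_poleSeries_of_lt _ hm, map_zero]

theorem t9_mul_lq_z9 : t9 * lq z9 = lq x9 := by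
  have h : xShift9 * PowerSeries.invOfUnit zShift9 1 * zShift9 = xShift9 := by
    linear_combination xShift9 * PowerSeries.mul_invOfUnit zShift9 1 constantCoeff_zShift9
  rw [t9, t9Z, coeffMap_poleSeries, poleSeries, ← X_sq_mul_zShift9, ← X_mul_xShift9]
  simp only [map_mul, map_pow]
  rw [mul_mul_mul_comm]
  conv_rhs => rw [← h, map_mul, map_mul]
  simp only [lq, RingHom.comp_apply, PowerSeries.map_X, HahnSeries.ofPowerSeries_X,
    HahnSeries.single_pow, HahnSeries.single_mul_single]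
  simp [mul_assoc]

theorem lq_z9_ne_zero : lq z9 ≠ 0 := by
  rw [map_ne_zero_iff _ lq_injective]
  intro h
  have := congrArg (PowerSeries.coeff 2) h
  rw [z9, PowerSeries.coeff_mk, map_zero, show z9Seq 2 = 1 by decide +kernel] at this
  exact one_ne_zero this

theorem t9_sq_mul_lq_z9 : t9 ^ 2 * lq z9 = lq w9 := by
  refine mul_right_cancel₀ lq_z9_ne_zero ?_
  rw [← map_mul lq w9, ← x9_sq, map_mul, ← t9_mul_lq_z9]
  ring

theorem lq_quad9 (a b c d e : ℤ) :
    lq (quad9 a b c d e) = lq z9 ^ 2 *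
      ((a : LaurentSeries ℚ) * t9 ^ 4 + b * t9 ^ 3 + c * t9 ^ 2 + d * t9 + e) := by
  simp only [quad9, map_add, map_mul, ← t9_mul_lq_z9, ← t9_sq_mul_lq_z9, zsmul_eq_mul, map_intCast]
  ring

theorem lq_cubic9 (a b c d e f g : ℤ) :
    lq (cubic9 a b c d e f g) = lq z9 ^ 3 * ((a : LaurentSeries ℚ) * t9 ^ 6 + b * t9 ^ 5
      + c * t9 ^ 4 + d * t9 ^ 3 + e * t9 ^ 2 + f * t9 + g) := by
  simp only [cubic9, map_add, map_mul, ← t9_mul_lq_z9, ← t9_sq_mul_lq_z9, zsmul_eq_mul, map_intCast]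
  ring

/-- The parametrisation of `j` by `t₉`. -/
theorem t9_mul_jq : t9 ^ 9 * (t9 ^ 2 + 9 * t9 + 27) * jq =
    (t9 + 9) ^ 3 * (t9 ^ 3 + 243 * t9 ^ 2 + 2187 * t9 + 6561) ^ 3 := by
  have h := param_of_relation 1 (S₄ := quad9 1 252 4374 26244 59049)
    (S₆ := cubic9 1 (-486) (-24057) (-367416) (-2657205) (-9565938) (-14348907))
    (P₄ := (t9 + 9) * (t9 ^ 3 + 243 * t9 ^ 2 + 2187 * t9 + 6561))
    (P₆ := t9 ^ 6 - 486 * t9 ^ 5 - 24057 * t9 ^ 4 - 367416 * t9 ^ 3 - 2657205 * t9 ^ 2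
      - 9565938 * t9 - 14348907)
    (q := t9 ^ 9 * (t9 ^ 2 + 9 * t9 + 27))
    (by rw [PowerSeries.expand_one, AlgHom.id_apply, eisenstein4_level9])
    (by rw [PowerSeries.expand_one, AlgHom.id_apply, eisenstein6_level9]) lq_z9_ne_zero
    (by rw [lq_quad9]; push_cast; ring) (by rw [lq_cubic9]; push_cast; ring) (by ring)
  rw [qExpand_one_apply, mul_pow] at h
  exact h

/-- `j - 1728` is a square over the denominator. -/
theorem t9_mul_jq_sub : t9 ^ 9 * (t9 ^ 2 + 9 * t9 + 27) * (jq - 1728) =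
    (t9 ^ 6 - 486 * t9 ^ 5 - 24057 * t9 ^ 4 - 367416 * t9 ^ 3 - 2657205 * t9 ^ 2
      - 9565938 * t9 - 14348907) ^ 2 := by
  linear_combination t9_mul_jq

theorem t9_mul_jq_three : t9 ^ 3 * (t9 ^ 2 + 9 * t9 + 27) ^ 3 * qExpand ℚ 3 jq =
    (t9 + 9) ^ 3 * (t9 + 3) ^ 3 * (t9 ^ 2 + 27) ^ 3 := by
  have h := param_of_relation 3 (S₄ := quad9 1 12 54 324 729)
    (S₆ := cubic9 1 18 135 0 (-3645) (-13122) (-19683))
    (P₄ := (t9 + 9) * (t9 + 3) * (t9 ^ 2 + 27))
    (P₆ := t9 ^ 6 + 18 * t9 ^ 5 + 135 * t9 ^ 4 - 3645 * t9 ^ 2 - 13122 * t9 - 19683)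
    (q := t9 ^ 3 * (t9 ^ 2 + 9 * t9 + 27) ^ 3)
    eisenstein4_three_level9 eisenstein6_three_level9 lq_z9_ne_zero
    (by rw [lq_quad9]; push_cast; ring) (by rw [lq_cubic9]; push_cast; ring) (by ring)
  rw [mul_pow, mul_pow] at h
  exact h

theorem t9_mul_jq_nine : t9 * (t9 ^ 2 + 9 * t9 + 27) * qExpand ℚ 9 jq =
    (t9 + 3) ^ 3 * (t9 ^ 3 + 9 * t9 ^ 2 + 27 * t9 + 3) ^ 3 := by
  have h := param_of_relation 9 (S₄ := quad9 1 12 54 84 9)
    (S₆ := cubic9 1 18 135 504 891 486 (-27))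
    (P₄ := (t9 + 3) * (t9 ^ 3 + 9 * t9 ^ 2 + 27 * t9 + 3))
    (P₆ := t9 ^ 6 + 18 * t9 ^ 5 + 135 * t9 ^ 4 + 504 * t9 ^ 3 + 891 * t9 ^ 2 + 486 * t9 - 27)
    (q := t9 * (t9 ^ 2 + 9 * t9 + 27))
    eisenstein4_nine_level9 eisenstein6_nine_level9 lq_z9_ne_zero
    (by rw [lq_quad9]; push_cast; ring) (by rw [lq_cubic9]; push_cast; ring) (by ring)
  rw [mul_pow] at h
  exact h

/-- `t₉` lies in the function field of `X₀(9)`. -/
theorem t9_mem : t9 ∈ modularFunctionFieldFull 9 := by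
  have h1 : qExpand ℚ 1 jq ∈ modularFunctionFieldFull 9 := jqd_mem_full 9 (one_dvd 9)
  have h3 : qExpand ℚ 3 jq ∈ modularFunctionFieldFull 9 := jqd_mem_full 9 (by norm_num)
  have h9 : qExpand ℚ 9 jq ∈ modularFunctionFieldFull 9 := jqd_mem_full 9 dvd_rfl
  rw [qExpand_one_apply] at h1
  obtain ⟨ht0, hto⟩ := order_eq_neg_one coeff_t9_neg_one fun m => coeff_t9_of_lt
  have hpoly := aeval_ne_zero_of_order_neg (x := t9) (by rw [hto]; norm_num)
  set v : LaurentSeries ℚ := t9 ^ 2 + 9 * t9 + 27 with hv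
  have hv' : Polynomial.aeval t9
      (Polynomial.X ^ 2 + 9 * Polynomial.X + 27 : Polynomial ℚ) = v := by
    simp [hv, map_ofNat]
  have hdeg : (Polynomial.X ^ 2 + 9 * Polynomial.X + 27 : Polynomial ℚ).natDegree = 2 := by
    compute_degree!
  obtain ⟨hv0, hvo⟩ := hpoly (Polynomial.X ^ 2 + 9 * Polynomial.X + 27 : Polynomial ℚ)
    (fun h => by simp [h] at hdeg)
  rw [hv', hdeg, hto] at hvo
  rw [hv'] at hv0
  set u : LaurentSeries ℚ := t9 ^ 3 / v with hu
  have hu0 : u ≠ 0 := div_ne_zero (pow_ne_zero 3 ht0) hv0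
  have humul : u * v = t9 ^ 3 := div_mul_cancel₀ _ hv0
  have huo : u.order < 0 := by
    have h := congrArg HahnSeries.order humul
    rw [HahnSeries.order_mul hu0 hv0, HahnSeries.order_pow, hto, hvo] at h
    simp at h
    omega
  have humem : u ∈ modularFunctionFieldFull 9 := by
    refine mem_of_param_three h1 h3 huo ?_ ?_
    · rw [hu]; field_simp; rw [hv]
      linear_combination t9_mul_jq
    · rw [hu]; field_simp; rw [hv]
      linear_combination t9_mul_jq_three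
  have hu'o : (t9 * v).order < 0 := by
    rw [HahnSeries.order_mul ht0 hv0, hto, hvo]; norm_num
  have hu'mem : t9 * v ∈ modularFunctionFieldFull 9 := by
    refine mem_of_param_three h3 h9 hu'o ?_ ?_
    · rw [hv]; linear_combination t9_mul_jq_three
    · rw [hv]; linear_combination t9_mul_jq_nine
  set u' : LaurentSeries ℚ := t9 * v with hu'
  set a : LaurentSeries ℚ := u + 9 with ha
  set b : LaurentSeries ℚ := 9 * u + 27 with hb
  set c : LaurentSeries ℚ := 27 * u - u' with hc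
  set d₁ : LaurentSeries ℚ := a * (9 * a * u + c) - b * (a * u + b) with hd₁
  set d₀ : LaurentSeries ℚ := 27 * a ^ 2 * u - c * (a * u + b) with hd₀
  have hlin : d₁ * t9 + d₀ = 0 := by
    rw [hd₁, hd₀, ha, hb, hc, hu', hu]
    field_simp
    rw [hv]
    ring
  have hd0 : d₁ ≠ 0 := by
    intro h
    let V : Polynomial ℚ := Polynomial.X ^ 2 + 9 * Polynomial.X + 27
    let A : Polynomial ℚ := Polynomial.X ^ 3 + 9 * V
    let B : Polynomial ℚ := 9 * Polynomial.X ^ 3 + 27 * V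
    let C : Polynomial ℚ := 27 * Polynomial.X ^ 3 - Polynomial.X * V ^ 2
    let P : Polynomial ℚ := A * (9 * A * Polynomial.X ^ 3 + C * V)
      - B * (A * Polynomial.X ^ 3 + B * V)
    have hP : P ≠ 0 := fun h => by
      have := congrArg (Polynomial.eval 1) h
      norm_num [P, A, B, C, V] at this
    refine (hpoly P hP).1 ?_
    have he : Polynomial.aeval t9 P = d₁ * v ^ 3 := by
      rw [hd₁, ha, hb, hc, hu', hu]
      simp [P, A, B, C, V, map_ofNat]
      rw [← hv]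
      field_simp
    rw [he, h, zero_mul]
  have haF : a ∈ modularFunctionFieldFull 9 := add_mem humem (ofNat_mem _ _)
  have hbF : b ∈ modularFunctionFieldFull 9 :=
    add_mem (mul_mem (ofNat_mem _ _) humem) (ofNat_mem _ _)
  have hcF : c ∈ modularFunctionFieldFull 9 := sub_mem (mul_mem (ofNat_mem _ _) humem) hu'mem
  rw [show t9 = -d₀ / d₁ by rw [eq_div_iff hd0]; linear_combination hlin]
  exact div_mem
    (neg_mem (sub_mem (mul_mem (mul_mem (ofNat_mem _ _) (pow_mem haF 2)) humem)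
      (mul_mem hcF (add_mem (mul_mem haF humem) hbF))))
    (sub_mem (mul_mem haF (add_mem (mul_mem (mul_mem (ofNat_mem _ _) haF) humem) hcF))
      (mul_mem hbF (add_mem (mul_mem haF humem) hbF)))

end Fermat.Agent.RED.Hauptmodul
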