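import Fermat.Agent.RED.Hauptmodul.FormSeries
import Mathlib.RingTheory.HahnSeries.Multiplication

/-!
# Algebraic relations between `j(dτ)` and the series of `E₄(dτ)`, `E₆(dτ)`
-/

set_option autoImplicit false

noncomputable section

namespace Fermat.Agent.RED.Hauptmodul

open ModularCurve Fermat.Agent.MF UpperHalfPlane

/-- `ℤ⟦q⟧ → ℚ((q))`. -/
abbrev lq : PowerSeries ℤ →+* LaurentSeries ℚ :=
  (HahnSeries.ofPowerSeries ℤ ℚ).comp (PowerSeries.map (Int.castRingHom ℚ))

theorem lq_injective : Function.Injective lq := by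
  intro a b h
  ext n
  have h' := congrArg (fun x : LaurentSeries ℚ => x.coeff (n : ℤ)) h
  simpa [lq, HahnSeries.ofPowerSeries_apply_coeff] using h'

theorem lq_expand (d : ℕ) [NeZero d] (S : PowerSeries ℤ) :
    lq (PowerSeries.expand d (NeZero.ne d) S) = qExpand ℚ d (lq S) := by
  ext k
  simp only [lq, RingHom.comp_apply]
  rcases lt_or_ge k 0 with hk | hk
  · rw [ofPowerSeries_coeff_of_neg _ hk]
    by_cases hdk : (d : ℤ) ∣ k
    · obtain ⟨m, rfl⟩ := hdk
      rw [qExpand_coeff_mul, ofPowerSeries_coeff_of_neg]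
      nlinarith [(show (0 : ℤ) ≤ d by positivity)]
    · rw [qExpand_coeff_of_not_dvd _ _ hdk]
  · lift k to ℕ using hk
    rw [HahnSeries.ofPowerSeries_apply_coeff, PowerSeries.coeff_map, PowerSeries.coeff_expand]
    by_cases hdk : d ∣ k
    · obtain ⟨m, rfl⟩ := hdk
      rw [if_pos (dvd_mul_right d m), Nat.mul_div_cancel_left m (Nat.pos_of_ne_zero (NeZero.ne d)),
        Nat.cast_mul, qExpand_coeff_mul, HahnSeries.ofPowerSeries_apply_coeff,
        PowerSeries.coeff_map]
    · rw [if_neg hdk, qExpand_coeff_of_not_dvd _ _ (by exact_mod_cast hdk), map_zero]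

theorem eisenstein_relation :
    eisenstein4 ^ 3 - eisenstein6 ^ 2 = 1728 * (PowerSeries.X * dedekindEtaUnit) := by
  apply castPS_injective
  have hfun : ((ModularForm.E₄ : ℍ → ℂ) ^ 3 + (-1 : ℂ) • (ModularForm.E₆ : ℍ → ℂ) ^ 2) =
      (1728 : ℂ) • ModularForm.discriminant := by
    funext z
    simp [ModularForm.discriminant_eq_E₄_cube_sub_E₆_sq z]
    ring
  have h := congrArg (qExpansion 1) hfun
  have h4 := pow_mem mem_qFunctions_E4 3
  have h6 := pow_mem mem_qFunctions_E6 2
  rw [qExpansion_add (analyticAt_of_mem_qFunctions h4)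
      (analyticAt_of_mem_qFunctions (qFunctions.smul_mem h6 (-1))),
    qExpansion_smul (analyticAt_of_mem_qFunctions h6),
    qExpansion_smul (analyticAt_of_mem_qFunctions mem_qFunctions_discriminant),
    qExpansion_pow_of_mem_qFunctions mem_qFunctions_E4,
    qExpansion_pow_of_mem_qFunctions mem_qFunctions_E6, qExpansion_E4, qExpansion_E6,
    qExpansion_discriminant, PowerSeries.smul_eq_C_mul, PowerSeries.smul_eq_C_mul, map_neg,
    map_one, neg_one_mul, ← sub_eq_add_neg, map_ofNat] at h
  simp only [castPS, map_sub, map_pow, map_mul, PowerSeries.map_X, map_ofNat]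
  exact h

theorem jq_mul_delta :
    jq * lq (PowerSeries.X * dedekindEtaUnit) = lq (eisenstein4 ^ 3) := by
  have hmap : jq = HahnSeries.single (-1 : ℤ) 1 * lq jNum := rfl
  rw [hmap, mul_assoc, ← map_mul]
  rw [show jNum * (PowerSeries.X * dedekindEtaUnit) = PowerSeries.X * eisenstein4 ^ 3 by
    rw [jNum]; linear_combination (PowerSeries.X * eisenstein4 ^ 3) * dedekindEtaUnit_mul_inv,
    map_mul, ← mul_assoc]
  simp only [lq, RingHom.comp_apply, PowerSeries.map_X, HahnSeries.ofPowerSeries_X,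
    HahnSeries.single_mul_single]
  simp

/-- `j(dτ) (E₄(dτ)³ - E₆(dτ)²) = 1728 E₄(dτ)³` on series. -/
theorem jq_expand_relation (d : ℕ) [NeZero d] {S₄ S₆ : PowerSeries ℤ}
    (h₄ : PowerSeries.expand d (NeZero.ne d) eisenstein4 = S₄)
    (h₆ : PowerSeries.expand d (NeZero.ne d) eisenstein6 = S₆) :
    qExpand ℚ d jq * (lq S₄ ^ 3 - lq S₆ ^ 2) = 1728 * lq S₄ ^ 3 := by
  have h : jq * (lq eisenstein4 ^ 3 - lq eisenstein6 ^ 2) = 1728 * lq eisenstein4 ^ 3 := by
    rw [← map_pow, ← map_pow, ← map_sub, eisenstein_relation, map_mul,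
      mul_left_comm, jq_mul_delta, map_ofNat]
  have h' := congrArg (qExpand ℚ d) h
  simp only [map_mul, map_sub, map_pow, map_ofNat, ← lq_expand] at h'
  rw [h₄, h₆] at h'
  exact h'

/-- From the series relation to a rational parametrisation `j(dτ) q(t) = P(t)³`. -/
theorem param_of_relation (d : ℕ) [NeZero d] {S₄ S₆ : PowerSeries ℤ}
    (h₄ : PowerSeries.expand d (NeZero.ne d) eisenstein4 = S₄)
    (h₆ : PowerSeries.expand d (NeZero.ne d) eisenstein6 = S₆)
    {z P₄ P₆ q : LaurentSeries ℚ} (hz : z ≠ 0)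
    (e₄ : lq S₄ = z ^ 2 * P₄) (e₆ : lq S₆ = z ^ 3 * P₆) (hq : P₄ ^ 3 - P₆ ^ 2 = 1728 * q) :
    q * qExpand ℚ d jq = P₄ ^ 3 := by
  have h := jq_expand_relation d h₄ h₆
  rw [e₄, e₆] at h
  have hne : (1728 : LaurentSeries ℚ) * z ^ 6 ≠ 0 :=
    mul_ne_zero (by
      rw [← map_ofNat (algebraMap ℚ (LaurentSeries ℚ)) 1728]
      exact (map_ne_zero _).mpr (by norm_num)) (pow_ne_zero 6 hz)
  refine mul_left_cancel₀ hne ?_
  linear_combination h - qExpand ℚ d jq * z ^ 6 * hq

/-- A series with a pole is transcendental: polynomials in it have the expected order. -/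
theorem aeval_ne_zero_of_order_neg {x : LaurentSeries ℚ} (hx : x.order < 0) :
    ∀ p : Polynomial ℚ, p ≠ 0 →
      Polynomial.aeval x p ≠ 0 ∧ (Polynomial.aeval x p).order = p.natDegree • x.order := by
  have hx0 : x ≠ 0 := fun h => by simp [h] at hx
  intro p
  induction p using Polynomial.recOnHorner with
  | M0 => simp
  | MC p a hp0 ha ih =>
    intro _
    rcases eq_or_ne p 0 with rfl | hp
    · rw [zero_add, Polynomial.aeval_C, Polynomial.natDegree_C, zero_smul,
        algebraMap_laurentSeries_eq_single]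
      exact ⟨HahnSeries.single_ne_zero ha, HahnSeries.order_single ha⟩
    · obtain ⟨hne, hord⟩ := ih hp
      have hdeg : 0 < p.natDegree := by
        by_contra h
        rw [Polynomial.eq_C_of_natDegree_le_zero (not_lt.mp h), hp0, map_zero] at hp
        exact hp rfl
      rw [Polynomial.natDegree_add_C, map_add, Polynomial.aeval_C,
        algebraMap_laurentSeries_eq_single]
      have hlt : (Polynomial.aeval x p).orderTop < (HahnSeries.single (0 : ℤ) a).orderTop := by
        rw [HahnSeries.orderTop_single ha, ← HahnSeries.order_eq_orderTop_of_ne_zero hne, hord,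
          WithTop.coe_lt_coe]
        exact smul_neg_of_pos_of_neg hdeg hx
      have he := HahnSeries.orderTop_add_eq_left hlt
      have hne' : Polynomial.aeval x p + HahnSeries.single (0 : ℤ) a ≠ 0 := by
        intro h
        rw [h, HahnSeries.orderTop_zero] at he
        exact hlt.ne_top he.symm
      rw [← HahnSeries.order_eq_orderTop_of_ne_zero hne',
        ← HahnSeries.order_eq_orderTop_of_ne_zero hne, WithTop.coe_eq_coe] at he
      exact ⟨hne', he.trans hord⟩
  | MX p hp ih =>
    intro _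
    obtain ⟨hne, hord⟩ := ih hp
    rw [map_mul, Polynomial.aeval_X, Polynomial.natDegree_mul_X hp]
    refine ⟨mul_ne_zero hne hx0, ?_⟩
    rw [HahnSeries.order_mul hne hx0, hord, succ_nsmul]

/-- The series `q⁻¹ · U`. -/
def poleSeries {R : Type*} [CommRing R] (U : PowerSeries R) : LaurentSeries R :=
  HahnSeries.single (-1 : ℤ) 1 * HahnSeries.ofPowerSeries ℤ R U

theorem coeff_poleSeries_neg_one {R : Type*} [CommRing R] {U : PowerSeries R}
    (hU : PowerSeries.constantCoeff U = 1) : (poleSeries U).coeff (-1) = 1 := by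
  rw [poleSeries, HahnSeries.coeff_single_mul, one_mul, sub_self,
    show (0 : ℤ) = ((0 : ℕ) : ℤ) from rfl, HahnSeries.ofPowerSeries_apply_coeff,
    PowerSeries.coeff_zero_eq_constantCoeff, hU]

theorem coeff_poleSeries_of_lt {R : Type*} [CommRing R] (U : PowerSeries R) {m : ℤ}
    (hm : m < -1) : (poleSeries U).coeff m = 0 := by
  rw [poleSeries, HahnSeries.coeff_single_mul, one_mul]
  exact ofPowerSeries_coeff_of_neg _ (by omega)

theorem coeffMap_poleSeries {R S : Type*} [CommRing R] [CommRing S] (f : R →+* S)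
    (U : PowerSeries R) : coeffMap f (poleSeries U) = poleSeries (U.map f) := by
  rw [poleSeries, map_mul, coeffMap_single, map_one, poleSeries]
  congr 1
  ext k
  rw [coeffMap_coeff]
  rcases lt_or_ge k 0 with hk | hk
  · rw [ofPowerSeries_coeff_of_neg _ hk, ofPowerSeries_coeff_of_neg _ hk, map_zero]
  · lift k to ℕ using hk
    rw [HahnSeries.ofPowerSeries_apply_coeff, HahnSeries.ofPowerSeries_apply_coeff,
      PowerSeries.coeff_map]

theorem order_eq_neg_one {x : LaurentSeries ℚ} (h1 : x.coeff (-1) = 1)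
    (h0 : ∀ m < (-1 : ℤ), x.coeff m = 0) : x ≠ 0 ∧ x.order = -1 := by
  have hne : x ≠ 0 := fun h => by simp [h] at h1
  refine ⟨hne, le_antisymm (HahnSeries.order_le_of_coeff_ne_zero (by rw [h1]; exact one_ne_zero))
    (not_lt.mp fun h => HahnSeries.leadingCoeff_ne_zero.mpr hne ?_)⟩
  rw [HahnSeries.leadingCoeff_eq]
  exact h0 _ h

theorem add_const_order {x : LaurentSeries ℚ} (h1 : x.coeff (-1) = 1)
    (h0 : ∀ m < (-1 : ℤ), x.coeff m = 0) (c : ℚ) :
    x + algebraMap ℚ (LaurentSeries ℚ) c ≠ 0 ∧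
      (x + algebraMap ℚ (LaurentSeries ℚ) c).order = -1 := by
  refine order_eq_neg_one ?_ fun m hm => ?_
  · rw [algebraMap_laurentSeries_eq_single, HahnSeries.coeff_add, h1,
      HahnSeries.coeff_single_of_ne (by norm_num), add_zero]
  · rw [algebraMap_laurentSeries_eq_single, HahnSeries.coeff_add, h0 m hm,
      HahnSeries.coeff_single_of_ne (show m ≠ 0 by omega), add_zero]

end Fermat.Agent.RED.Hauptmodul
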