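import Fermat.Agent.MF.JExpansion
import Fermat.Agent.MF.Degeneracy
import Fermat.Agent.MF.Cosets.Index
import Fermat.Agent.EIS.E2Form
import Fermat.Prelude.Thm_ModularForm_sturm_bound_Gamma0

/-!
# Integral `q`-series of modular forms on `Γ₀(N)`

`formSeries N k` is the group of integral power series which are expansions of forms of weight `k`
on `Γ₀(N)`; two members agreeing up to the Sturm bound are equal.
-/

set_option autoImplicit false

noncomputable section

namespace Fermat.Agent.RED.Hauptmodul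

open UpperHalfPlane Function CongruenceSubgroup Fermat.Agent.MF Fermat.Agent.EIS
open scoped MatrixGroups ModularForm Manifold Real

/-- `ℤ⟦q⟧ → ℂ⟦q⟧`. -/
abbrev castPS : PowerSeries ℤ →+* PowerSeries ℂ := PowerSeries.map (Int.castRingHom ℂ)

theorem castPS_injective : Injective castPS := by
  intro a b h
  ext n
  have := congrArg (PowerSeries.coeff n) h
  simpa [castPS] using this

theorem isQSer_mform {N : ℕ} {k : ℤ} (F : MForm N k) : IsQSer 1 F (qExpansion 1 F) :=
  isQSer_qExpansion one_pos (by simpa using (coe_mem_qFunctions F).1) (coe_mem_qFunctions F).2.1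
    (coe_mem_qFunctions F).2.2

/-- Integral expansions of forms of weight `k` on `Γ₀(N)`. -/
def formSeries (N : ℕ) (k : ℤ) : AddSubgroup (PowerSeries ℤ) where
  carrier := {S | ∃ F : MForm N k, qExpansion 1 F = castPS S}
  zero_mem' := ⟨0, by rw [FunLike.coe_zero, qExpansion_zero, map_zero]⟩
  add_mem' := by
    rintro S T ⟨F, hF⟩ ⟨G, hG⟩
    exact ⟨F + G, by
      rw [FunLike.coe_add, qExpansion_add (analyticAt_of_mem_qFunctions (coe_mem_qFunctions F))
        (analyticAt_of_mem_qFunctions (coe_mem_qFunctions G)), hF, hG, map_add]⟩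
  neg_mem' := by
    rintro S ⟨F, hF⟩
    refine ⟨(-1 : ℂ) • F, ?_⟩
    rw [FunLike.coe_smul, qExpansion_smul (analyticAt_of_mem_qFunctions (coe_mem_qFunctions F)), hF,
      map_neg, neg_one_smul]

theorem mem_formSeries {N : ℕ} {k : ℤ} {S : PowerSeries ℤ} :
    S ∈ formSeries N k ↔ ∃ F : MForm N k, qExpansion 1 F = castPS S := Iff.rfl

theorem mem_formSeries_of_isQSer {N : ℕ} {k : ℤ} {S : PowerSeries ℤ} (F : MForm N k)
    (h : IsQSer 1 F (castPS S)) : S ∈ formSeries N k :=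
  ⟨F, h.qExpansion_eq one_pos⟩

theorem mul_mem_formSeries {N : ℕ} {k l : ℤ} {S T : PowerSeries ℤ} (hS : S ∈ formSeries N k)
    (hT : T ∈ formSeries N l) : S * T ∈ formSeries N (k + l) := by
  obtain ⟨F, hF⟩ := hS
  obtain ⟨G, hG⟩ := hT
  exact ⟨F.mul G, by
    rw [ModularForm.coe_mul, qExpansion_mul (analyticAt_of_mem_qFunctions (coe_mem_qFunctions F))
      (analyticAt_of_mem_qFunctions (coe_mem_qFunctions G)), hF, hG, map_mul]⟩

theorem mem_formSeries_of_zsmul {N : ℕ} {k : ℤ} {S : PowerSeries ℤ} {n : ℤ} (hn : n ≠ 0)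
    (h : n • S ∈ formSeries N k) : S ∈ formSeries N k := by
  obtain ⟨F, hF⟩ := h
  refine ⟨(n : ℂ)⁻¹ • F, ?_⟩
  rw [FunLike.coe_smul, qExpansion_smul (analyticAt_of_mem_qFunctions (coe_mem_qFunctions F)), hF,
    map_zsmul, ← Int.cast_smul_eq_zsmul ℂ, smul_smul, inv_mul_cancel₀ (by exact_mod_cast hn),
    one_smul]

theorem mem_formSeries_levelOne {N : ℕ} {k : ℤ} {S : PowerSeries ℤ} (f : ModularForm 𝒮ℒ k)
    (h : qExpansion 1 f = castPS S) : S ∈ formSeries N k :=
  ⟨ofLevelOne N f, h⟩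

theorem expand_mem_formSeries {M N d : ℕ} [NeZero M] [NeZero N] [NeZero d] (h : M * d ∣ N) {k : ℤ}
    {S : PowerSeries ℤ} (hS : S ∈ formSeries M k) :
    PowerSeries.expand d (NeZero.ne d) S ∈ formSeries N k := by
  obtain ⟨F, hF⟩ := hS
  refine mem_formSeries_of_isQSer (rescale d h F) ?_
  have h1 := (isQSer_mform F).comp_mul (NeZero.ne d) (m := scaleH d) (coe_scaleH d)
  rw [hF] at h1
  rw [castPS, PowerSeries.map_expand]
  simpa using h1

theorem mem_formSeries_of_dvd {M N : ℕ} [NeZero M] [NeZero N] (h : M ∣ N) {k : ℤ}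
    {S : PowerSeries ℤ} (hS : S ∈ formSeries M k) : S ∈ formSeries N k := by
  have := expand_mem_formSeries (d := 1) (N := N) (by simpa using h) hS
  simpa using this

/-- Sturm bound for `formSeries`. -/
theorem formSeries_eq {N : ℕ} [NeZero N] {k : ℤ} {S T : PowerSeries ℤ} (hS : S ∈ formSeries N k)
    (hT : T ∈ formSeries N k) (b : ℕ) (hb : (k * ModularCurve.dedekindPsi N).toNat / 12 < b)
    (h : ∀ n < b, S.coeff n = T.coeff n) : S = T := by
  obtain ⟨F, hF⟩ := sub_mem hS hT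
  have h0 : F = 0 := by
    refine ModularForm.sturm_bound_Gamma0 N F fun n hn => ?_
    rw [Fermat.Agent.MF.Cosets.Gamma0_index_eq_dedekindPsi] at hn
    rw [hF, PowerSeries.coeff_map, map_sub, h n (by omega), sub_self, map_zero]
  rw [h0, FunLike.coe_zero, qExpansion_zero] at hF
  exact sub_eq_zero.mp (castPS_injective (hF.symm.trans (map_zero castPS).symm))

/-- Convolution of coefficient sequences. -/
def convZ (f g : ℕ → ℤ) (n : ℕ) : ℤ := ∑ i ∈ Finset.range (n + 1), f i * g (n - i)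

theorem mk_mul_mk (f g : ℕ → ℤ) :
    PowerSeries.mk f * PowerSeries.mk g = PowerSeries.mk (convZ f g) := by
  ext n
  rw [PowerSeries.coeff_mul, Finset.Nat.sum_antidiagonal_eq_sum_range_succ_mk,
    PowerSeries.coeff_mk, convZ]
  simp

theorem mk_add_mk (f g : ℕ → ℤ) :
    PowerSeries.mk f + PowerSeries.mk g = PowerSeries.mk (fun n => f n + g n) := by
  ext n; simp

theorem mk_sub_mk (f g : ℕ → ℤ) :
    PowerSeries.mk f - PowerSeries.mk g = PowerSeries.mk (fun n => f n - g n) := by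
  ext n; simp

theorem zsmul_mk (c : ℤ) (f : ℕ → ℤ) :
    c • PowerSeries.mk f = PowerSeries.mk (fun n => c * f n) := by
  ext n; rw [map_zsmul]; simp

theorem expand_mk (d : ℕ) (hd : d ≠ 0) (f : ℕ → ℤ) :
    PowerSeries.expand d hd (PowerSeries.mk f) =
      PowerSeries.mk (fun n => if d ∣ n then f (n / d) else 0) := by
  ext n
  simp [PowerSeries.coeff_expand]

/-- Coefficients of `E₄`. -/
def e4Seq (n : ℕ) : ℤ := if n = 0 then 1 else 240 * ∑ d ∈ n.divisors, (d : ℤ) ^ 3

/-- Coefficients of `E₆`. -/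
def e6Seq (n : ℕ) : ℤ := if n = 0 then 1 else -504 * ∑ d ∈ n.divisors, (d : ℤ) ^ 5

theorem eisenstein4_eq_mk : ModularCurve.eisenstein4 = PowerSeries.mk e4Seq := rfl

theorem eisenstein6_eq_mk : eisenstein6 = PowerSeries.mk e6Seq := rfl

theorem eisenstein4_mem (N : ℕ) : ModularCurve.eisenstein4 ∈ formSeries N 4 :=
  mem_formSeries_levelOne ModularForm.E₄ qExpansion_E4

theorem eisenstein6_mem (N : ℕ) : eisenstein6 ∈ formSeries N 6 :=
  mem_formSeries_levelOne ModularForm.E₆ qExpansion_E6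

/-- Sum of the divisors prime to `p`. -/
def sigmaAway (p n : ℕ) : ℤ := ∑ d ∈ n.divisors with ¬ p ∣ d, (d : ℤ)

theorem sigmaPrime_eq_sigmaAway (p : ℕ) [hp : Fact p.Prime] {n : ℕ} (hn : n ≠ 0) :
    sigmaPrime p n = sigmaAway p n := by
  rw [sigmaPrime, sigmaAway, ArithmeticFunction.sigma_one_apply,
    ← Finset.sum_filter_add_sum_filter_not n.divisors (p ∣ ·)]
  push_cast
  by_cases hd : p ∣ n
  · rw [if_pos hd, ArithmeticFunction.sigma_one_apply, Nat.cast_sum, Finset.mul_sum]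
    have : ∑ d ∈ n.divisors with p ∣ d, (d : ℤ) = ∑ e ∈ (n / p).divisors, (p : ℤ) * e := by
      refine Finset.sum_nbij' (fun d => d / p) (fun e => p * e) ?_ ?_ ?_ ?_ ?_
      · intro d hd'
        obtain ⟨h1, h2⟩ := Finset.mem_filter.mp hd'
        exact Nat.mem_divisors.mpr ⟨Nat.div_dvd_div h2 (Nat.dvd_of_mem_divisors h1),
          (Nat.div_pos (Nat.le_of_dvd (Nat.pos_of_ne_zero hn) hd) hp.out.pos).ne'⟩
      · intro e he
        refine Finset.mem_filter.mpr ⟨Nat.mem_divisors.mpr ⟨?_, hn⟩, dvd_mul_right _ _⟩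
        exact (Nat.mul_div_cancel' hd) ▸ Nat.mul_dvd_mul_left p (Nat.dvd_of_mem_divisors he)
      · intro d hd'
        exact Nat.mul_div_cancel' (Finset.mem_filter.mp hd').2
      · intro e _
        exact Nat.mul_div_cancel_left e hp.out.pos
      · intro d hd'
        exact_mod_cast (Nat.mul_div_cancel' (Finset.mem_filter.mp hd').2).symm
    rw [this]
    ring
  · rw [if_neg hd, Finset.sum_eq_zero (s := n.divisors.filter (p ∣ ·)), zero_add, sub_zero]
    intro d hd'
    exact (hd ((Finset.mem_filter.mp hd').2.trans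
      (Nat.dvd_of_mem_divisors (Finset.mem_filter.mp hd').1))).elim

theorem sigmaAway_mul (p : ℕ) [hp : Fact p.Prime] (m : ℕ) :
    sigmaAway p (p * m) = sigmaAway p m := by
  rcases eq_or_ne m 0 with rfl | hm
  · simp
  rw [sigmaAway, sigmaAway]
  refine Finset.sum_congr ?_ fun _ _ => rfl
  ext d
  simp only [Finset.mem_filter, Nat.mem_divisors]
  constructor
  · rintro ⟨⟨h1, -⟩, h2⟩
    exact ⟨⟨((hp.out.coprime_iff_not_dvd.mpr h2).symm.dvd_of_dvd_mul_left h1), hm⟩, h2⟩
  · rintro ⟨⟨h1, -⟩, h2⟩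
    exact ⟨⟨h1.mul_left p, mul_ne_zero hp.out.ne_zero hm⟩, h2⟩

theorem sigmaAway_of_not_dvd (p : ℕ) {n : ℕ} (h : ¬ p ∣ n) :
    sigmaAway p n = ∑ d ∈ n.divisors, (d : ℤ) := by
  rw [sigmaAway, Finset.filter_true_of_mem]
  exact fun d hd hpd => h (hpd.trans (Nat.dvd_of_mem_divisors hd))

/-- Coefficients of `(p E₂(pτ) - E₂(τ)) / (p - 1)`. -/
def eisSeq (p : ℕ) (c : ℤ) (n : ℕ) : ℤ := if n = 0 then 1 else c * sigmaAway p n

theorem eisSeq_mem (p : ℕ) [hp : Fact p.Prime] (c : ℤ) (hc : c * ((p : ℤ) - 1) = 24) :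
    PowerSeries.mk (eisSeq p c) ∈ formSeries p 2 := by
  refine mem_formSeries_of_isQSer ((c : ℂ) • gamma0Form (eisE p) 2 (eisE_slash p) (eisE_mdiff p)
    ((isQSer_eisE p).isBoundedAtImInfty one_pos) ((tendsto_eisE_slash_S p).isBigO_one ℝ)) ?_
  have h := (isQSer_eisE p).smul (c : ℂ)
  have e : castPS (PowerSeries.mk (eisSeq p c)) = (c : ℂ) • eisESer p := by
    ext n
    rcases eq_or_ne n 0 with rfl | hn
    · have hc' : (c : ℂ) * ((p : ℂ) - 1) = 24 := by exact_mod_cast hc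
      simp [eisSeq, eisESer]
      linear_combination -hc' / 24
    · simp [eisSeq, eisESer, hn, sigmaPrime_eq_sigmaAway p hn]
  rw [e, FunLike.coe_smul]
  exact h

end Fermat.Agent.RED.Hauptmodul
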